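import Fermat.Agent.FrobCriterion.Level
import Fermat.Agent.TraceNF.PointDegree

/-!
# Torsion points and cyclic subgroups over extensions

With every matrix of determinant one in the image, the points of exact order `N` are conjugate, so
each generates a field of degree their number; and a subgroup of prime order `l` has at least
`l + 1` conjugates.
-/

set_option autoImplicit false
set_option linter.unusedSectionVars false

noncomputable section

namespace FA.FrobCriterion

open WeierstrassCurve Matrix FA.IsogenyNF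
open scoped WeierstrassCurve.Affine Classical

universe u v

variable {K : Type u} [Field K] [NumberField K] {Kb : Type v} [Field Kb] [DecidableEq Kb]
  [Algebra K Kb] [CharZero Kb] [IsAlgClosed Kb] [Algebra.IsAlgebraic K Kb]
  {E : WeierstrassCurve K} [E.IsElliptic] {N : ℕ}

/-- **The points of exact order `N` are conjugate.** -/
theorem transitive_of_sl (hN : N ≠ 0) {P₀ Q₀ : (E.toAffine⁄Kb).Point} (h : TorGen E N P₀ Q₀)
    (hsl : ∀ M : Matrix (Fin 2) (Fin 2) (ZMod N), M.det = 1 →
      ∃ σ : Kb ≃ₐ[K] Kb, h.rep hN σ = M)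
    {P Q : (E.toAffine⁄Kb).Point} (hP : addOrderOf P = N) (hQ : addOrderOf Q = N) :
    ∃ σ : Kb ≃ₐ[K] Kb, σ • P = Q := by
  have : NeZero N := ⟨hN⟩
  obtain ⟨v, rfl⟩ := h.coord_surj (R := P) (addOrderOf_dvd_iff_nsmul_eq_zero.1 hP.dvd)
  obtain ⟨w, rfl⟩ := h.coord_surj (R := Q) (addOrderOf_dvd_iff_nsmul_eq_zero.1 hQ.dvd)
  rw [addOrderOf_injective h.coord (h.coord_injective hN)] at hP hQ
  obtain ⟨A, hA⟩ := FA.TraceNF.exists_gl_mulVec hP
  obtain ⟨B, hB⟩ := FA.TraceNF.exists_gl_mulVec hQ
  let a : (ZMod N)ˣ := GeneralLinearGroup.det A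
  let b : (ZMod N)ˣ := GeneralLinearGroup.det B
  let D : Matrix (Fin 2) (Fin 2) (ZMod N) := !![1, 0; 0, ↑(a * b⁻¹)]
  obtain ⟨σ, hσ⟩ := hsl ((B : Matrix (Fin 2) (Fin 2) (ZMod N)) * D * (A⁻¹ : GL (Fin 2) (ZMod N)))
    (by
      rw [det_mul, det_mul, det_fin_two_of, zero_mul, sub_zero, one_mul,
        ← GeneralLinearGroup.val_det_apply B, ← GeneralLinearGroup.val_det_apply A⁻¹,
        map_inv, ← Units.val_mul, ← Units.val_mul]
      simp [a, b, mul_comm (GeneralLinearGroup.det A), ← mul_assoc])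
  refine ⟨σ, ?_⟩
  rw [h.rep_spec hN, hσ, ← hA, mulVec_mulVec, mul_assoc, Units.inv_mul, mul_one,
    ← mulVec_mulVec]
  congr 1
  rw [← hB]
  congr 1
  funext i
  fin_cases i <;> simp [D, mulVec, dotProduct, Fin.sum_univ_two]

/-- **The degree of the field of a point of exact order `N`.** -/
theorem finrank_point_of_transitive (hN : N ≠ 0)
    (htr : ∀ P Q : (E.toAffine⁄Kb).Point, addOrderOf P = N → addOrderOf Q = N →
      ∃ σ : Kb ≃ₐ[K] Kb, σ • P = Q)
    {x y : Kb} (h : (E.toAffine⁄Kb).Nonsingular x y)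
    (hord : addOrderOf (WeierstrassCurve.Affine.Point.some x y h : (E.toAffine⁄Kb).Point) = N) :
    Module.finrank K (IntermediateField.adjoin K {x, y}) = orderCount N := by
  have : IsAlgClosure K Kb := ⟨inferInstance, inferInstance⟩
  have : IsGalois K Kb := IsAlgClosure.isGalois K Kb
  set P : (E.toAffine⁄Kb).Point := WeierstrassCurve.Affine.Point.some x y h with hP
  have hfix : (IntermediateField.adjoin K {x, y}).fixingSubgroup =
      MulAction.stabilizer (Kb ≃ₐ[K] Kb) P := by
    ext σ
    rw [IntermediateField.mem_fixingSubgroup_iff, MulAction.mem_stabilizer_iff]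
    simp only [hP, Affine.Point.algEquiv_smul_def, Affine.Point.map_some,
      Affine.Point.some.injEq]
    refine ⟨fun hσ => ⟨hσ x (IntermediateField.subset_adjoin K _ (Set.mem_insert x _)),
      hσ y (IntermediateField.subset_adjoin K _ (Set.mem_insert_of_mem x rfl))⟩, fun hσ z hz => ?_⟩
    have hle : IntermediateField.adjoin K {x, y} ≤
        IntermediateField.fixedField (Subgroup.zpowers σ) := by
      rw [IntermediateField.adjoin_le_iff]
      rintro a ha ⟨τ, hτ⟩
      have hstab : σ ∈ MulAction.stabilizer (Kb ≃ₐ[K] Kb) a := by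
        rcases ha with rfl | rfl
        · exact hσ.1
        · exact hσ.2
      obtain ⟨k, rfl⟩ := Subgroup.mem_zpowers_iff.1 hτ
      exact Subgroup.zpow_mem _ hstab k
    exact hle hz ⟨σ, Subgroup.mem_zpowers σ⟩
  rw [IntermediateField.finrank_eq_fixingSubgroup_index, hfix, MulAction.index_stabilizer]
  have horb : MulAction.orbit (Kb ≃ₐ[K] Kb) P =
      {Q : (E.toAffine⁄Kb).Point | addOrderOf Q = N} := by
    ext Q
    refine ⟨?_, fun hQ => htr P Q hord hQ⟩
    rintro ⟨σ, rfl⟩
    exact (addOrderOf_injective (DistribSMul.toAddMonoidHom (E.toAffine⁄Kb).Point σ)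
      (MulAction.injective σ) P).trans hord
  rw [horb, ncard_order_eq E hN]

/-- **A subgroup of prime order has at least `l + 1` conjugates.** -/
theorem succ_le_of_subgroup {l : ℕ} [hl : Fact l.Prime] {P₀ Q₀ : (E.toAffine⁄Kb).Point}
    (h : TorGen E l P₀ Q₀) (hsl : ∀ M : Matrix (Fin 2) (Fin 2) (ZMod l), M.det = 1 →
      ∃ σ : Kb ≃ₐ[K] Kb, h.rep hl.out.ne_zero σ = M)
    (F : IntermediateField K Kb) [FiniteDimensional K F]
    (G : AddSubgroup (E.toAffine⁄Kb).Point) (hcard : Nat.card G = l)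
    (hG : ∀ σ ∈ F.fixingSubgroup, ∀ R ∈ G, σ • R ∈ G) : l + 1 ≤ Module.finrank K F := by
  have : IsAlgClosure K Kb := ⟨inferInstance, inferInstance⟩
  have : IsGalois K Kb := IsAlgClosure.isGalois K Kb
  have : Finite G := Nat.finite_of_card_ne_zero (hcard.symm ▸ hl.out.ne_zero)
  have : Nontrivial G := Finite.one_lt_card_iff_nontrivial.1 (hcard.symm ▸ hl.out.one_lt)
  obtain ⟨P, hP0⟩ := exists_ne (0 : G)
  have hdvd : addOrderOf (P : (E.toAffine⁄Kb).Point) ∣ l := by
    rw [AddSubgroup.addOrderOf_coe]; exact hcard ▸ addOrderOf_dvd_natCard P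
  have hP : addOrderOf (P : (E.toAffine⁄Kb).Point) = l :=
    ((Nat.dvd_prime hl.out).1 hdvd).resolve_left fun e =>
      hP0 (Subtype.ext (AddMonoid.addOrderOf_eq_one_iff.1 e))
  have hGP : ∀ R ∈ G, R ∈ AddSubgroup.zmultiples (P : (E.toAffine⁄Kb).Point) := fun R hR => by
    obtain ⟨c, hc⟩ := AddSubgroup.mem_zmultiples_iff.1
      (mem_zmultiples_of_prime_card hcard hP0 (g' := (⟨R, hR⟩ : G)))
    exact AddSubgroup.mem_zmultiples_iff.2 ⟨c, congrArg Subtype.val hc⟩
  let w : Option (ZMod l) → Fin 2 → ZMod l := fun i => i.elim ![1, 0] fun a => ![a, 1]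
  have hw : ∀ i, addOrderOf (h.coord (w i)) = l := fun i => by
    refine addOrderOf_eq_prime (h.nsmul_coord _) fun e => ?_
    have := h.coord_injective hl.out.ne_zero (e.trans (map_zero h.coord).symm)
    rcases i with _ | a
    · simpa [w] using congrFun this 0
    · simpa [w] using congrFun this 1
  choose s hs using fun i => transitive_of_sl hl.out.ne_zero h hsl hP (hw i)
  have hinj : Function.Injective fun i => (s i : (Kb ≃ₐ[K] Kb) ⧸ F.fixingSubgroup) := by
    intro i j hij
    have hmem := QuotientGroup.eq.1 hij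
    obtain ⟨c, hc⟩ := AddSubgroup.mem_zmultiples_iff.1 (hGP _ (hG _ hmem _ P.2))
    replace hc : c • h.coord (w i) = h.coord (w j) := by
      rw [← hs i, ← hs j, ← smul_comm (s i) c, hc, mul_smul, smul_inv_smul]
    rw [← map_zsmul] at hc
    have e := h.coord_injective hl.out.ne_zero hc
    have e0 := congrFun e 0
    have e1 := congrFun e 1
    rcases i with _ | a <;> rcases j with _ | a' <;> simp [w] at e0 e1
    · rfl
    · simp [e1] at e0
    · rw [show (c : ZMod l) = 1 from e1, one_mul] at e0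
      rw [e0]
  have : Finite ((Kb ≃ₐ[K] Kb) ⧸ F.fixingSubgroup) := Nat.finite_of_card_ne_zero (by
    rw [← Subgroup.index_eq_card, ← IntermediateField.finrank_eq_fixingSubgroup_index]
    exact Module.finrank_pos.ne')
  have := Nat.card_le_card_of_injective _ hinj
  rwa [Finite.card_option, Nat.card_zmod, ← Subgroup.index_eq_card,
    ← IntermediateField.finrank_eq_fixingSubgroup_index] at this

end FA.FrobCriterion

end
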