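import Fermat.Agent.FrobCriterion.Places
import Fermat.Agent.IsogenyNF.GLAdelic

/-!
# From the primes to every level

If for every prime `p ∣ N`, all at least `5`, every matrix of determinant one modulo `p` comes from
Galois, so does every matrix of determinant one modulo `N`; with the cyclotomic character onto,
every invertible one.
-/

set_option autoImplicit false
set_option linter.unusedSectionVars false

noncomputable section

namespace FA.FrobCriterion

open WeierstrassCurve Matrix FA.IsogenyNF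
open scoped WeierstrassCurve.Affine Classical

universe u v

variable {K : Type u} [Field K] [NumberField K] {Kb : Type v} [Field Kb] [DecidableEq Kb]
  [Algebra K Kb] [CharZero Kb] [IsAlgClosed Kb] [Algebra.IsAlgebraic K Kb]
  {E : WeierstrassCurve K} [E.IsElliptic]

set_option quotPrecheck false in
local notation "PtE" => (E.toAffine⁄Kb).Point

/-- Multiples of generators generate the points killed by a factor. -/
theorem torGen_of_mul {m d : ℕ} (hm : m ≠ 0) (hd : d ≠ 0) {P Q : PtE}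
    (h : TorGen E (m * d) P Q) : TorGen E d (m • P) (m • Q) where
  left := by rw [← mul_nsmul', mul_comm, h.left]
  right := by rw [← mul_nsmul', mul_comm, h.right]
  span R hR := by
    have hn : m * d ≠ 0 := mul_ne_zero hm hd
    obtain ⟨v, rfl⟩ := h.coord_surj (R := R) (by rw [mul_nsmul', hR, nsmul_zero])
    have hv : d • v = 0 := h.coord_injective hn (by rw [map_nsmul, hR, map_zero])
    have : NeZero (m * d) := ⟨hn⟩
    have hw : ∀ i, ∃ w : ℕ, v i = ((m * w : ℕ) : ZMod (m * d)) := fun i => by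
      have h1 : d * m ∣ d * (v i).val := by
        rw [mul_comm d m, ← ZMod.natCast_eq_zero_iff, Nat.cast_mul, ZMod.natCast_zmod_val,
          ← nsmul_eq_mul]
        exact congrFun hv i
      obtain ⟨w, hw⟩ := Nat.dvd_of_mul_dvd_mul_left (Nat.pos_of_ne_zero hd) h1
      exact ⟨w, by rw [← hw, ZMod.natCast_zmod_val]⟩
    choose w hw using hw
    refine ⟨w 0, w 1, ?_⟩
    rw [show v = ![(((m * w 0 : ℕ) : ℤ) : ZMod (m * d)),
        (((m * w 1 : ℕ) : ℤ) : ZMod (m * d))] from funext fun i => by fin_cases i <;> simp [hw],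
      h.coord_intCast, natCast_zsmul, natCast_zsmul, natCast_zsmul, natCast_zsmul,
      mul_comm m (w 0), mul_comm m (w 1), mul_nsmul', mul_nsmul']

/-- The action on the points killed by a factor is the reduction. -/
theorem rep_cast {m d : ℕ} (hm : m ≠ 0) (hd : d ≠ 0) {P Q : PtE} (h : TorGen E (m * d) P Q)
    (σ : Kb ≃ₐ[K] Kb) :
    (torGen_of_mul hm hd h).rep hd σ =
      (ZMod.castHom (dvd_mul_left d m) (ZMod d)).mapMatrix (h.rep (mul_ne_zero hm hd) σ) := by
  set h₀ := torGen_of_mul hm hd h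
  set π := ZMod.castHom (dvd_mul_left d m) (ZMod d)
  have hred : ∀ w : Fin 2 → ZMod (m * d), m • h.coord w = h₀.coord (π ∘ w) := fun w => by
    obtain ⟨i, hi⟩ := ZMod.intCast_surjective (w 0)
    obtain ⟨j, hj⟩ := ZMod.intCast_surjective (w 1)
    have hw : w = ![(i : ZMod (m * d)), (j : ZMod (m * d))] :=
      funext fun s => by fin_cases s <;> simp [hi, hj]
    have hw' : π ∘ w = ![(i : ZMod d), (j : ZMod d)] :=
      funext fun s => by fin_cases s <;> simp [hw, π]
    rw [hw', h₀.coord_intCast, hw, h.coord_intCast, nsmul_add, smul_comm _ i, smul_comm _ j]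
  refine Matrix.ext_of_mulVec_single fun i => h₀.coord_injective hd ?_
  have hsingle : (Pi.single i 1 : Fin 2 → ZMod d) = π ∘ Pi.single i 1 := funext fun j => by
    rw [Function.comp_apply, Pi.single_apply, Pi.single_apply, apply_ite π, map_one, map_zero]
  rw [← h₀.rep_spec, hsingle, ← hred, smul_nsmul', h.rep_spec (mul_ne_zero hm hd), hred]
  exact congrArg h₀.coord (funext fun j => RingHom.map_mulVec π _ _ j)

variable (Kb) in
/-- Every matrix of determinant one modulo `p` comes from Galois, in any coordinates. -/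
def FullSL (E : WeierstrassCurve K) [E.IsElliptic] (p : ℕ) : Prop :=
  ∀ (P Q : (E.toAffine⁄Kb).Point) (h : TorGen E p P Q) (hp : p ≠ 0)
    (A : Matrix (Fin 2) (Fin 2) (ZMod p)), A.det = 1 → ∃ σ : Kb ≃ₐ[K] Kb, h.rep hp σ = A

/-- **`SL₂(ℤ / N)`** from the primes dividing `N`. -/
theorem sl_level {N : ℕ} (hN : N ≠ 0) (h5 : ∀ p ∈ N.primeFactors, 5 ≤ p)
    (hsl : ∀ p ∈ N.primeFactors, FullSL Kb E p) {P Q : PtE} (h : TorGen E N P Q)
    {M : Matrix (Fin 2) (Fin 2) (ZMod N)} (hM : M.det = 1) :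
    ∃ σ : Kb ≃ₐ[K] Kb, h.rep hN σ = M := by
  have : NeZero N := ⟨hN⟩
  let e : ℕ → ℕ := fun p => N.factorization p - 1
  have hdvd : ∀ p ∈ N.primeFactors, p ^ (e p + 1) ∣ N := fun p hp => by
    show p ^ (N.factorization p - 1 + 1) ∣ N
    rw [(ordCompl_spec hN hp).1]
    exact Nat.ordProj_dvd N p
  let ρ : ∀ p : ℕ, (Kb ≃ₐ[K] Kb) →* MatN p (e p + 1) := fun p =>
    if hp : p ∈ N.primeFactors then
      ((ZMod.castHom (hdvd p hp) _).mapMatrix : Matrix (Fin 2) (Fin 2) _ →+* _).toMonoidHom.comp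
        (h.rep hN)
    else 1
  let A : ∀ p : ℕ, MatN p (e p + 1) := fun p =>
    if hp : p ∈ N.primeFactors then (ZMod.castHom (hdvd p hp) _).mapMatrix M else 1
  let G₁ : Subgroup (Kb ≃ₐ[K] Kb) := commutator (Kb ≃ₐ[K] Kb)
  have hdet : ∀ p ∈ N.primeFactors, ∀ g : G₁, (((ρ p).comp G₁.subtype) g).det = 1 :=
    fun p _ g => by
      have h1 := Abelianization.commutator_subset_ker
        ((Matrix.detMonoidHom.comp (ρ p)).toHomUnits) g.2
      rw [MonoidHom.mem_ker] at h1
      exact congrArg Units.val h1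
  have hmod : ∀ p ∈ N.primeFactors, ∀ B : Matrix (Fin 2) (Fin 2) (ZMod p), B.det = 1 →
      ∃ g : G₁, modP (Nat.succ_ne_zero _) ((ρ p).comp G₁.subtype g) = B := fun p hp B hB => by
    have hpp := Nat.prime_of_mem_primeFactors hp
    have := Fact.mk hpp
    obtain ⟨g, hg, hgB⟩ := exists_commutator_modP (p := p) (h5 p hp)
      ((modP (p := p) (e p).succ_ne_zero).toMonoidHom.comp (ρ p)) (fun B' hB' => by
        obtain ⟨m, hm⟩ := Nat.dvd_of_mem_primeFactors hp
        rw [mul_comm] at hm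
        subst hm
        obtain ⟨σ, hσ⟩ := hsl p hp _ _ (torGen_of_mul (left_ne_zero_of_mul hN) hpp.ne_zero h)
          hpp.ne_zero B' hB'
        refine ⟨σ, ?_⟩
        rw [← hσ, rep_cast (left_ne_zero_of_mul hN) hpp.ne_zero]
        simp only [ρ, dif_pos hp]
        ext i j
        exact RingHom.congr_fun (RingHom.ext_zmod ((ZMod.castHom
          (dvd_pow_self p (e p).succ_ne_zero) (ZMod p)).comp (ZMod.castHom (hdvd p hp) _))
            (ZMod.castHom (dvd_mul_left p m) (ZMod p))) (h.rep hN σ i j)) hB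
    exact ⟨⟨g, hg⟩, hgB⟩
  obtain ⟨g, hg⟩ := exists_family_eq e (fun p => (ρ p).comp G₁.subtype) N.primeFactors
    (fun p hp => ⟨Nat.prime_of_mem_primeFactors hp, h5 p hp⟩) hdet hmod A fun p hp => by
      simp only [A, dif_pos hp, ← RingHom.map_det, hM, map_one]
  refine ⟨(g : Kb ≃ₐ[K] Kb), Matrix.ext fun i j => sub_eq_zero.1 ?_⟩
  set x := h.rep hN g i j - M i j
  rw [← ZMod.natCast_zmod_val x, ZMod.natCast_eq_zero_iff, Nat.dvd_iff_prime_pow_dvd_dvd]
  intro p k hpp hk
  rcases k.eq_zero_or_pos with rfl | hk0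
  · simp
  have hp : p ∈ N.primeFactors :=
    Nat.mem_primeFactors.2 ⟨hpp, (dvd_pow_self p hk0.ne').trans hk, hN⟩
  have hk' : k ≤ e p + 1 := by
    show k ≤ N.factorization p - 1 + 1
    rw [(ordCompl_spec hN hp).1]
    exact (hpp.pow_dvd_iff_le_factorization hN).1 hk
  refine (pow_dvd_pow p hk').trans ?_
  rw [← ZMod.natCast_eq_zero_iff, ← map_natCast (ZMod.castHom (hdvd p hp) (ZMod (p ^ (e p + 1)))),
    ZMod.natCast_zmod_val, map_sub, sub_eq_zero]
  have hgp := congrFun (congrFun (hg p hp) i) j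
  simp only [ρ, A, dif_pos hp] at hgp
  exact hgp

/-- **`GL₂(ℤ / N)`** with `N` prime to the discriminant of `K`. -/
theorem gl_level {N : ℕ} (hN : N ≠ 0) (h5 : ∀ p ∈ N.primeFactors, 5 ≤ p)
    (hd : ∀ p ∈ N.primeFactors, ¬ (p : ℤ) ∣ NumberField.discr K)
    (hsl : ∀ p ∈ N.primeFactors, FullSL Kb E p) {P Q : PtE} (h : TorGen E N P Q)
    {M : Matrix (Fin 2) (Fin 2) (ZMod N)} (hM : IsUnit M.det) :
    ∃ σ : Kb ≃ₐ[K] Kb, h.rep hN σ = M := by
  have : NeZero N := ⟨hN⟩
  obtain ⟨τ, hτ⟩ := exists_cyclotomic_action_level Kb hN hd (a := M.det.val)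
    ((ZMod.isUnit_iff_coprime _ _).1 (by rwa [ZMod.natCast_zmod_val]))
  have hdet : (h.rep hN τ).det = M.det := by
    rw [FA.WeilNF.det_rep hN h hτ, ZMod.natCast_zmod_val]
  obtain ⟨σ, hσ⟩ := sl_level hN h5 hsl h (M := h.rep hN τ⁻¹ * M) (by
    rw [det_mul, ← hdet, ← det_mul, ← map_mul, inv_mul_cancel, map_one, det_one])
  exact ⟨τ * σ, by rw [map_mul, hσ, ← mul_assoc, ← map_mul, mul_inv_cancel, map_one, one_mul]⟩

/-- The image as a group of units is everything. -/
theorem range_eq_top {N : ℕ} (hN : N ≠ 0) {P Q : PtE} (h : TorGen E N P Q)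
    (hgl : ∀ M : Matrix (Fin 2) (Fin 2) (ZMod N), IsUnit M.det →
      ∃ σ : Kb ≃ₐ[K] Kb, h.rep hN σ = M) :
    (h.rep hN).toHomUnits.range = ⊤ :=
  MonoidHom.range_eq_top.2 fun u => by
    obtain ⟨σ, hσ⟩ := hgl u ((Matrix.isUnit_iff_isUnit_det _).1 u.isUnit)
    exact ⟨σ, Units.ext hσ⟩

/-- **The degree of the field of the points killed by `N`.** -/
theorem finrank_torField {N : ℕ} (hN : N ≠ 0) {P Q : PtE} (h : TorGen E N P Q)
    (hgl : ∀ M : Matrix (Fin 2) (Fin 2) (ZMod N), IsUnit M.det →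
      ∃ σ : Kb ≃ₐ[K] Kb, h.rep hN σ = M) :
    Module.finrank K (torField Kb E N) = Nat.card (GL (Fin 2) (ZMod N)) := by
  have : IsAlgClosure K Kb := ⟨inferInstance, inferInstance⟩
  have : IsGalois K Kb := IsAlgClosure.isGalois K Kb
  let ψ := (h.rep hN).toHomUnits
  have hfix : (torField Kb E N).fixingSubgroup = ψ.ker := by
    ext σ
    rw [IntermediateField.mem_fixingSubgroup_iff, MonoidHom.mem_ker]
    constructor
    · refine fun hσ => Units.ext (Matrix.ext_of_mulVec_single fun i => h.coord_injective hN ?_)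
      rw [Units.val_one, one_mulVec, MonoidHom.coe_toHomUnits, ← h.rep_spec]
      exact smul_torField E hσ (h.nsmul_coord _)
    · refine fun hσ => torField_fixed E fun R hR => ?_
      obtain ⟨v, rfl⟩ := h.coord_surj hR
      rw [h.rep_spec hN, show h.rep hN σ = 1 from congrArg Units.val hσ, one_mulVec]
  rw [IntermediateField.finrank_eq_fixingSubgroup_index, hfix, Subgroup.index_ker,
    range_eq_top hN h hgl, Subgroup.card_top]

end FA.FrobCriterion

end
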