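import Fermat.Agent.Ribet.SerreSurjective
import Fermat.Agent.SerreLarge.Klein
import Fermat.Agent.OpenImageAll.Exceptional
import Fermat.Agent.TorsionIsoNF.Algebra

/-!
# Serre's criterion for matrices modulo `p`

A group of invertible matrices modulo `p ≥ 5` with three elements of prescribed traces and
determinants contains every matrix of determinant one (Serre 1972, proposition 19): it has no
stable line, and were there no transvection it would lie in the normaliser of a Cartan subgroup,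
whose elements of nonzero trace commute.
-/

set_option autoImplicit false

noncomputable section

open Matrix

namespace FA.FrobCriterion

local notation "M2" => Matrix (Fin 2) (Fin 2)

variable {p : ℕ} [hp : Fact p.Prime] {G : Type*} [Group G]

/-- The three conditions on a trace and a determinant. -/
def SplitPair (t d : ZMod p) : Prop := t ≠ 0 ∧ t ^ 2 - 4 * d ≠ 0 ∧ IsSquare (t ^ 2 - 4 * d)

/-- The second condition. -/
def NonsplitPair (t d : ZMod p) : Prop := t ≠ 0 ∧ ¬ IsSquare (t ^ 2 - 4 * d)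

/-- The third condition: `u = t² / d` is not `0, 1, 2, 4` and no root of `u² - 3 u + 1`. -/
def LargeOrderPair (t d : ZMod p) : Prop :=
  t ≠ 0 ∧ t ^ 2 ≠ d ∧ t ^ 2 ≠ 2 * d ∧ t ^ 2 ≠ 4 * d ∧ t ^ 4 - 3 * d * t ^ 2 + d ^ 2 ≠ 0

theorem disc_scalar (M : M2 (ZMod p)) (c : ZMod p) (h : M = c • 1) :
    M.trace ^ 2 - 4 * M.det = 0 := by
  subst h
  simp
  ring

/-- No scalar matrix has a nonzero discriminant. -/
theorem ne_scalar {M : M2 (ZMod p)} (h : M.trace ^ 2 - 4 * M.det ≠ 0) :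
    ∀ c : ZMod p, M ≠ c • 1 :=
  fun c e => h (disc_scalar M c e)

/-- **Projective order at least six.** -/
theorem pow_ne_scalar {M : M2 (ZMod p)} (h : LargeOrderPair M.trace M.det) {n : ℕ} (hn : 0 < n)
    (h6 : n < 6) (c : ZMod p) : M ^ n ≠ c • 1 := by
  obtain ⟨h0, h1, h2, h4, h5⟩ := h
  have hns := ne_scalar (M := M) (fun e => h4 (sub_eq_zero.mp e))
  set t := M.trace
  set d := M.det
  have ch : M * M = t • M - d • 1 := FA.LocalDef.mul_self_two M
  have e2 : M ^ 2 = t • M - d • 1 := by rw [pow_two, ch]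
  have e3 : M ^ 3 = (t ^ 2 - d) • M - (t * d) • 1 := by
    rw [pow_succ, e2, sub_mul, smul_mul_assoc, smul_mul_assoc, one_mul, ch]; module
  have e4 : M ^ 4 = (t ^ 3 - 2 * t * d) • M - (t ^ 2 * d - d ^ 2) • 1 := by
    rw [pow_succ, e3, sub_mul, smul_mul_assoc, smul_mul_assoc, one_mul, ch]; module
  have e5 : M ^ 5 = (t ^ 4 - 3 * d * t ^ 2 + d ^ 2) • M - (t ^ 3 * d - 2 * t * d ^ 2) • 1 := by
    rw [pow_succ, e4, sub_mul, smul_mul_assoc, smul_mul_assoc, one_mul, ch]; module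
  have key : ∀ a b : ZMod p, a ≠ 0 → a • M - b • 1 ≠ c • 1 := fun a b ha e =>
    hns (a⁻¹ * (b + c)) (by
      rw [mul_smul, add_smul, ← e, add_sub_cancel, smul_smul, inv_mul_cancel₀ ha, one_smul])
  interval_cases n
  · rw [pow_one]; exact hns c
  · rw [e2]; exact key _ _ h0
  · rw [e3]; exact key _ _ (sub_ne_zero.2 h1)
  · rw [e4]
    refine key _ _ ?_
    rw [show t ^ 3 - 2 * t * d = t * (t ^ 2 - 2 * d) by ring]
    exact mul_ne_zero h0 (sub_ne_zero.2 h2)
  · rw [e5]; exact key _ _ h5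

/-- A nonsquare discriminant leaves no eigenvector. -/
theorem mulVec_ne_smul {M : M2 (ZMod p)} (h : ¬ IsSquare (M.trace ^ 2 - 4 * M.det))
    {v : Fin 2 → ZMod p} (hv : v ≠ 0) (a : ZMod p) : M *ᵥ v ≠ a • v := fun e => by
  refine h ⟨2 * a - M.trace, ?_⟩
  have e0 := congrFun e 0
  have e1 := congrFun e 1
  simp [mulVec, dotProduct, Fin.sum_univ_two] at e0 e1
  rw [trace_fin_two, det_fin_two]
  have hq : (M 0 0 - a) * (M 1 1 - a) - M 0 1 * M 1 0 = 0 := by
    by_cases h0 : v 0 = 0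
    · have h1 : v 1 ≠ 0 := fun h1 => hv (funext fun i => by fin_cases i <;> assumption)
      exact mul_right_cancel₀ h1 (by linear_combination (M 0 0 - a) * e1 - M 1 0 * e0)
    · exact mul_right_cancel₀ h0 (by linear_combination (M 1 1 - a) * e0 - M 0 1 * e1)
  linear_combination (-4 : ZMod p) * hq

/-- **A transvection and no stable line give every matrix of determinant one.** -/
theorem exists_eq_of_det_one (r : G →* M2 (ZMod p))
    (hirr : ∀ l : Fin 2 → ZMod p, l ≠ 0 → ∃ g, ∀ a : ZMod p, r g *ᵥ l ≠ a • l) {σ : G}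
    (hne : r σ ≠ 1) (hsq : (r σ - 1) * (r σ - 1) = 0) {M : M2 (ZMod p)} (hM : M.det = 1) :
    ∃ g, r g = M := by
  obtain ⟨v, hv⟩ : ∃ v, (r σ - 1) *ᵥ v ≠ 0 := by
    by_contra! hall
    exact hne (sub_eq_zero.mp (Matrix.ext_of_mulVec_single fun i => by rw [hall, zero_mulVec]))
  obtain ⟨g, hg⟩ := hirr _ hv
  have he : r σ *ᵥ ((r σ - 1) *ᵥ v) = (r σ - 1) *ᵥ v := by
    have h := mulVec_mulVec v (r σ - 1) (r σ - 1)
    rw [hsq, zero_mulVec, sub_mulVec, one_mulVec] at h
    exact sub_eq_zero.mp h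
  generalize (r σ - 1) *ᵥ v = e at hv hg he
  -- coordinates in the basis `e, r g e`
  let f : Fin 2 → ZMod p := r g *ᵥ e
  let P : M2 (ZMod p) := !![e 0, f 0; e 1, f 1]
  have hP : P.det ≠ 0 := fun h0 => by
    simp [P, det_fin_two] at h0
    by_cases h : e 0 = 0
    · have h1 : e 1 ≠ 0 := fun h1 => hv (funext fun i => by fin_cases i <;> assumption)
      refine hg (f 1 / e 1) (funext fun i => ?_)
      fin_cases i <;> simp [f] at h0 ⊢
      · field_simp; linear_combination -h0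
      · field_simp
    · refine hg (f 0 / e 0) (funext fun i => ?_)
      fin_cases i <;> simp [f] at h0 ⊢
      · field_simp
      · field_simp; linear_combination h0
  have hU : IsUnit P.det := isUnit_iff_ne_zero.mpr hP
  have hPQ : P * P⁻¹ = 1 := Matrix.mul_nonsing_inv P hU
  have hQP : P⁻¹ * P = 1 := Matrix.nonsing_inv_mul P hU
  have hUe : P *ᵥ ![1, 0] = e := funext fun i => by fin_cases i <;> simp [P, mulVec, dotProduct]
  have hUf : P *ᵥ ![0, 1] = f := funext fun i => by fin_cases i <;> simp [P, mulVec, dotProduct]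
  generalize P⁻¹ = Q at hPQ hQP
  clear_value P
  obtain ⟨ψ, hψ⟩ : ∃ ψ : G →* M2 (ZMod p), ∀ h, ψ h = Q * r h * P :=
    ⟨{ toFun := fun h => Q * r h * P
       map_one' := by rw [map_one, mul_one, hQP]
       map_mul' := fun a b => by
        rw [map_mul, show Q * r a * P * (Q * r b * P) = Q * r a * (P * Q) * r b * P by
          simp only [mul_assoc], hPQ, mul_one]
        simp only [mul_assoc] }, fun h => rfl⟩
  have hback : ∀ h : G, P * ψ h * Q = r h := fun h => by
    rw [hψ, show P * (Q * r h * P) * Q = P * Q * r h * (P * Q) by simp only [mul_assoc], hPQ,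
      one_mul, mul_one]
  have hfix : ∀ (h : G) (w : Fin 2 → ZMod p), r h *ᵥ (P *ᵥ w) = P *ᵥ w → ψ h *ᵥ w = w :=
    fun h w hw => by
      rw [hψ, ← mulVec_mulVec, ← mulVec_mulVec, hw, mulVec_mulVec, hQP, one_mulVec]
  have hψsq : ∀ h : G, (r h - 1) * (r h - 1) = 0 → (ψ h - 1) * (ψ h - 1) = 0 := fun h h0 => by
    have e1 : ψ h - 1 = Q * (r h - 1) * P := by
      rw [hψ, mul_sub, sub_mul, mul_one, hQP]
    rw [e1, show Q * (r h - 1) * P * (Q * (r h - 1) * P) =
      Q * ((r h - 1) * (P * Q) * (r h - 1)) * P by simp only [mul_assoc], hPQ, mul_one, h0,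
      mul_zero, zero_mul]
  have hτsq : (r (g * σ * g⁻¹) - 1) * (r (g * σ * g⁻¹) - 1) = 0 := by
    have h1 : r g * r g⁻¹ = 1 := by rw [← map_mul, mul_inv_cancel, map_one]
    have h2 : r g⁻¹ * r g = 1 := by rw [← map_mul, inv_mul_cancel, map_one]
    have e1 : r (g * σ * g⁻¹) - 1 = r g * (r σ - 1) * r g⁻¹ := by
      rw [map_mul, map_mul, mul_sub, sub_mul, mul_one, h1]
    rw [e1, show r g * (r σ - 1) * r g⁻¹ * (r g * (r σ - 1) * r g⁻¹) =
      r g * ((r σ - 1) * (r g⁻¹ * r g) * (r σ - 1)) * r g⁻¹ by simp only [mul_assoc],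
      h2, mul_one, hsq, mul_zero, zero_mul]
  obtain ⟨b, hb⟩ : ∃ b, ψ σ = !![1, b; 0, 1] :=
    ⟨_, FA.Ribet.eq_upper_of_fix (hfix σ _ (by rw [hUe, he])) (hψsq σ hsq)⟩
  obtain ⟨c, hc⟩ : ∃ c, ψ (g * σ * g⁻¹) = !![1, 0; c, 1] :=
    ⟨_, FA.Ribet.eq_lower_of_fix (hfix _ _ (by
      rw [hUf]
      show r (g * σ * g⁻¹) *ᵥ (r g *ᵥ e) = r g *ᵥ e
      rw [mulVec_mulVec, ← map_mul, inv_mul_cancel_right, map_mul, ← mulVec_mulVec, he]))
        (hψsq _ hτsq)⟩
  have hψne : ψ σ ≠ 1 := fun h => hne (by rw [← hback σ, h, mul_one, hPQ])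
  have hb0 : b ≠ 0 := fun h => hψne (by rw [hb, h, one_fin_two])
  have hc0 : c ≠ 0 := fun h => hψne (by
    rw [show σ = g⁻¹ * (g * σ * g⁻¹) * g by group, map_mul, map_mul, hc, h, ← one_fin_two, mul_one,
      ← map_mul, inv_mul_cancel, map_one])
  have hup : ∀ n : ℕ, (!![1, b; 0, 1] : M2 (ZMod p)) ^ n = !![1, n * b; 0, 1] := fun n => by
    induction n with
    | zero => simp [one_fin_two]
    | succ n ih =>
      rw [pow_succ, ih]
      ext i j
      fin_cases i <;> fin_cases j <;> simp [Matrix.mul_apply, Fin.sum_univ_two]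
      ring
  have hlow : ∀ n : ℕ, (!![1, 0; c, 1] : M2 (ZMod p)) ^ n = !![1, 0; n * c, 1] := fun n => by
    induction n with
    | zero => simp [one_fin_two]
    | succ n ih =>
      rw [pow_succ, ih]
      ext i j
      fin_cases i <;> fin_cases j <;> simp [Matrix.mul_apply, Fin.sum_univ_two]
      ring
  obtain ⟨t, ht⟩ := FA.Ribet.mem_of_elementary_field (MonoidHom.mrange ψ)
    (fun z => ⟨σ ^ (z / b).val,
      by rw [map_pow, hb, hup, ZMod.natCast_zmod_val, div_mul_cancel₀ z hb0]⟩)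
    (fun z => ⟨(g * σ * g⁻¹) ^ (z / c).val,
      by rw [map_pow, hc, hlow, ZMod.natCast_zmod_val, div_mul_cancel₀ z hc0]⟩)
    (M := Q * M * P) (by rw [det_mul, det_mul, hM, mul_one, ← det_mul, hQP, det_one])
  exact ⟨t, by rw [← hback t, ht, show P * (Q * M * P) * Q = P * Q * M * (P * Q) by
    simp only [mul_assoc], hPQ, one_mul, mul_one]⟩

/-- **Serre's criterion.** -/
theorem exists_eq_of_three (r : G →* M2 (ZMod p)) {g₁ g₂ g₃ : G}
    (h₁ : SplitPair (r g₁).trace (r g₁).det) (h₂ : NonsplitPair (r g₂).trace (r g₂).det)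
    (h₃ : LargeOrderPair (r g₃).trace (r g₃).det) {M : M2 (ZMod p)} (hM : M.det = 1) :
    ∃ g, r g = M := by
  by_cases hunip : ∃ σ, r σ ≠ 1 ∧ (r σ - 1) * (r σ - 1) = 0
  · obtain ⟨σ, hne, hsq⟩ := hunip
    exact exists_eq_of_det_one r (fun l hl => ⟨g₂, mulVec_ne_smul h₂.2 hl⟩) hne hsq hM
  push Not at hunip
  exfalso
  have hh : ∀ n : ℕ, 0 < n → n < 6 → ∀ c : ZMod p, r g₃ ^ n ≠ c • 1 :=
    fun n hn h6 => pow_ne_scalar h₃ hn h6
  have hu : ∀ g, (r g - 1) * (r g - 1) = 0 → r g = 1 := fun g hg => by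
    by_contra hne
    exact hunip g hne hg
  have hc : ∀ {x : G}, (r x).trace ≠ 0 → Commute (r x) (r g₃) := fun {x} ht => by
    by_contra hx
    exact ht (FA.SerreLarge.trace_eq_zero_of_not_commute r hu hh hx).1
  have hcomm : Commute (r g₁) (r g₂) := FA.SerreLarge.commute_of_commute
    (fun c => by simpa using hh 1 one_pos (by norm_num) c) (hc h₁.1) (hc h₂.1)
  have hns₂ := ne_scalar (M := r g₂) (fun e => h₂.2 (by rw [e]; exact ⟨0, (mul_zero _).symm⟩))
  obtain ⟨a, b, hab⟩ := FA.Exceptional.exists_eq_add_of_commute hns₂ hcomm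
  have hdisc : (r g₁).trace ^ 2 - 4 * (r g₁).det =
      a ^ 2 * ((r g₂).trace ^ 2 - 4 * (r g₂).det) := by
    rw [hab]
    simp [trace_fin_two, det_fin_two]
    ring
  obtain ⟨-, hne, s, hs⟩ := h₁
  have ha : a ≠ 0 := fun e => hne (by rw [hdisc, e]; ring)
  exact h₂.2 ⟨s / a, by rw [div_mul_div_comm, ← hs, hdisc]; field_simp⟩

/-- Every matrix of determinant one leaves no common eigenvector. -/
theorem noEigenvector_of_sl (r : G →* M2 (ZMod p))
    (h : ∀ M : M2 (ZMod p), M.det = 1 → ∃ g, r g = M) :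
    FA.TorsionIsoNF.NoEigenvector r := by
  intro v hv
  by_contra! hall
  obtain ⟨g, hg⟩ := h !![1, 1; 0, 1] (by simp [det_fin_two])
  obtain ⟨g', hg'⟩ := h !![1, 0; 1, 1] (by simp [det_fin_two])
  obtain ⟨c, hc⟩ := hall g
  obtain ⟨c', hc'⟩ := hall g'
  rw [hg] at hc
  rw [hg'] at hc'
  have a0 := congrFun hc 0
  have a1 := congrFun hc 1
  have b0 := congrFun hc' 0
  have b1 := congrFun hc' 1
  simp [mulVec, dotProduct, Fin.sum_univ_two, Matrix.map_apply] at a0 a1 b0 b1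
  have hv1 : v 1 = 0 := by
    by_contra h1
    exact h1 (by linear_combination a0 + (v 0) * (mul_right_cancel₀ h1
      ((one_mul (v 1)).trans a1)).symm)
  have hv0 : v 0 = 0 := by
    by_contra h0
    exact h0 (by linear_combination b1 + (v 1) * (mul_right_cancel₀ h0
      ((one_mul (v 0)).trans b0)).symm)
  exact hv (funext fun i => by fin_cases i <;> assumption)

/-- **The three conditions occur**, `p ≥ 5`. -/
theorem exists_pairs (h5 : 5 ≤ p) :
    (∃ t d : ZMod p, d ≠ 0 ∧ SplitPair t d) ∧ (∃ t d : ZMod p, d ≠ 0 ∧ NonsplitPair t d) ∧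
      ∃ t d : ZMod p, d ≠ 0 ∧ LargeOrderPair t d := by
  have hn : ∀ n : ℕ, 0 < n → n < 5 → (n : ZMod p) ≠ 0 := fun n h0 h e => by
    have := Nat.le_of_dvd h0 ((ZMod.natCast_eq_zero_iff n p).mp e)
    omega
  have h2 : (2 : ZMod p) ≠ 0 := by exact_mod_cast hn 2 (by norm_num) (by norm_num)
  have h3 : (3 : ZMod p) ≠ 0 := by exact_mod_cast hn 3 (by norm_num) (by norm_num)
  have h4 : (4 : ZMod p) ≠ 0 := by exact_mod_cast hn 4 (by norm_num) (by norm_num)
  refine ⟨⟨3, 2, h2, h3, ?_, ⟨1, ?_⟩⟩, ?_, ⟨3, 3, h3, h3, ?_, ?_, ?_, ?_⟩⟩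
  · norm_num
  · norm_num
  · obtain ⟨η, hη⟩ := FiniteField.exists_nonsquare (F := ZMod p) (by
      rw [ringChar.eq (ZMod p) p]; omega)
    have hη1 : η ≠ 1 := fun e => hη (e ▸ IsSquare.one)
    refine ⟨1, (1 - η) / 4, div_ne_zero (sub_ne_zero.2 hη1.symm) h4, one_ne_zero, ?_⟩
    rw [mul_div_cancel₀ _ h4]
    simpa using hη
  · exact fun e => mul_ne_zero h2 h3 (by linear_combination e)
  · exact fun e => h3 (by linear_combination e)
  · exact fun e => h3 (by linear_combination -e)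
  · exact fun e => mul_ne_zero h3 h3 (by linear_combination e)

end FA.FrobCriterion

end
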