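import Fermat.Agent.FrobCriterion.Matrices
import Fermat.Agent.TorsionIsoNF.Modules
import Fermat.Agent.KatzNF.Katz
import Fermat.Agent.IsogenyNF.GLTwo

/-!
# The image modulo `p` from Frobenius elements over a number field

At a good place prime to `N` some automorphism acts with trace `a_v` and determinant `N v`, and a
matrix of the image recurs at infinitely many places, with the same trace and determinant.
-/

set_option autoImplicit false
set_option linter.unusedSectionVars false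

noncomputable section

namespace FA.FrobCriterion

open WeierstrassCurve NumberField IsDedekindDomain Matrix Filter Topology FA.IsogenyNF FA.TraceNF
  FA.KatzNF FA.Hecke FA.NaturalChebotarev
open scoped WeierstrassCurve.Affine Classical

universe u v

variable {K : Type u} [Field K] [NumberField K] {Kb : Type v} [Field Kb] [DecidableEq Kb]
  [Algebra K Kb] [CharZero Kb] [IsAlgClosed Kb] [Algebra.IsAlgebraic K Kb]
  (W₀ : WeierstrassCurve (𝓞 K)) [(W₀.map (algebraMap (𝓞 K) K)).IsElliptic]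

local notation "W" => W₀.map (algebraMap (𝓞 K) K)

/-- **An automorphism with the trace and determinant of a good place.** -/
theorem exists_frob {N : ℕ} (hN : N ≠ 0) {P Q : ((W).toAffine⁄Kb).Point} (h : TorGen (W) N P Q)
    {v : HeightOneSpectrum (𝓞 K)} (hΔ : W₀.Δ ∉ v.asIdeal) (hv : (N : 𝓞 K) ∉ v.asIdeal) :
    ∃ σ : Kb ≃ₐ[K] Kb, (h.rep hN σ).trace = (frobTrace W₀ v : ZMod N) ∧
      (h.rep hN σ).det = (Ideal.absNorm v.asIdeal : ZMod N) := by
  have := finiteDimensional_levelField (Kb := Kb) (W) hN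
  have := isGalois_levelField (Kb := Kb) (W) N
  have : NumberField (levelField Kb (W) N) := NumberField.of_module_finite K _
  have : IsAlgClosure K Kb := ⟨inferInstance, inferInstance⟩
  have : IsGalois K Kb := IsAlgClosure.isGalois K Kb
  obtain ⟨Q₀, hQ, hQv, τ, hτ⟩ :=
    FA.Chebotarev.exists_isArithFrobAt (L := levelField Kb (W) N) v
  obtain ⟨σ, hσ⟩ := AlgEquiv.restrictNormalHom_surjective (F := K)
    (K₁ := levelField Kb (W) N) Kb τ
  exact ⟨σ, frob_matrix W₀ hN h hΔ hv (fun x hx => IntermediateField.subset_adjoin K _ hx)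
    hQ hQv hτ hσ⟩

/-- **The trace and determinant of an element of the image recur at infinitely many places.** -/
theorem infinite_places {N : ℕ} (hN : N ≠ 0) {P Q : ((W).toAffine⁄Kb).Point}
    (h : TorGen (W) N P Q) {S : Set (ZMod N × ZMod N)} {σ : Kb ≃ₐ[K] Kb}
    (hσ : ((h.rep hN σ).trace, (h.rep hN σ).det) ∈ S) :
    {v : HeightOneSpectrum (𝓞 K) |
      ((frobTrace W₀ v : ZMod N), (Ideal.absNorm v.asIdeal : ZMod N)) ∈ S}.Infinite := by
  have : NeZero N := ⟨hN⟩
  intro hfin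
  have hmean := hasMean_image W₀ hN h S
  have h0 : HasMean (fun v : HeightOneSpectrum (𝓞 K) =>
      if ((frobTrace W₀ v : ZMod N), (Ideal.absNorm v.asIdeal : ZMod N)) ∈ S then (1 : ℝ) else 0)
      0 := by
    refine hasMean_congr _ hfin (B := 1) (fun v => by split_ifs <;> norm_num)
      (fun v hv _ => if_neg hv) (b := fun _ => (0 : ℝ)) ?_
    simp [HasMean, wSum]
  have e := tendsto_nhds_unique hmean (show Tendsto _ atTop (𝓝 (0 : ℝ)) by
    unfold HasMean at h0
    convert h0)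
  rw [div_eq_zero_iff, or_iff_left (Nat.cast_ne_zero.2 Nat.card_pos.ne'), Nat.cast_eq_zero] at e
  have : Nonempty {g : (h.rep hN).toHomUnits.range // (g.1.val.trace, g.1.val.det) ∈ S} :=
    ⟨⟨⟨_, σ, rfl⟩, hσ⟩⟩
  exact Nat.card_pos.ne' e

/-- Three good places prime to `p` with the conditions of Serre's criterion modulo `p`. -/
def ThreePlaces (p : ℕ) [Fact p.Prime] : Prop :=
  ∀ C ∈ [SplitPair (p := p), NonsplitPair, LargeOrderPair], ∃ v : HeightOneSpectrum (𝓞 K),
    W₀.Δ ∉ v.asIdeal ∧ (p : 𝓞 K) ∉ v.asIdeal ∧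
      C (frobTrace W₀ v : ZMod p) (Ideal.absNorm v.asIdeal : ZMod p)

variable {p : ℕ} [hp : Fact p.Prime] {P Q : ((W₀.map (algebraMap (𝓞 K) K)).toAffine⁄Kb).Point}
  (h : TorGen (W₀.map (algebraMap (𝓞 K) K)) p P Q)

/-- **Three places give every matrix of determinant one.** -/
theorem sl_image (h3 : ThreePlaces W₀ p) {M : Matrix (Fin 2) (Fin 2) (ZMod p)} (hM : M.det = 1) :
    ∃ σ : Kb ≃ₐ[K] Kb, TorGen.rep (E := W) h hp.out.ne_zero σ = M := by
  have key : ∀ C ∈ [SplitPair (p := p), NonsplitPair, LargeOrderPair],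
      ∃ g : Kb ≃ₐ[K] Kb, C (TorGen.rep (E := W) h hp.out.ne_zero g).trace
        (TorGen.rep (E := W) h hp.out.ne_zero g).det := fun C hC => by
    obtain ⟨v, hΔ, hv, hCv⟩ := h3 C hC
    obtain ⟨g, ht, hd⟩ := exists_frob W₀ hp.out.ne_zero h hΔ hv
    exact ⟨g, by rw [ht, hd]; exact hCv⟩
  obtain ⟨g₁, h₁⟩ := key SplitPair (by simp)
  obtain ⟨g₂, h₂⟩ := key NonsplitPair (by simp)
  obtain ⟨g₃, h₃⟩ := key LargeOrderPair (by simp)
  exact exists_eq_of_three _ h₁ h₂ h₃ hM

/-- **Every invertible matrix**, `p` prime to the discriminant of the field. -/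
theorem gl_image (hd : ¬ (p : ℤ) ∣ NumberField.discr K) (h3 : ThreePlaces W₀ p)
    {M : Matrix (Fin 2) (Fin 2) (ZMod p)} (hM : M.det ≠ 0) :
    ∃ σ : Kb ≃ₐ[K] Kb, TorGen.rep (E := W) h hp.out.ne_zero σ = M := by
  obtain ⟨τ, hτ⟩ := exists_cyclotomic_action Kb hp.out hd (a := M.det.val) fun e => hM <| by
    rw [← ZMod.natCast_zmod_val M.det]
    exact (ZMod.natCast_eq_zero_iff _ _).2 e
  have hdet : (TorGen.rep (E := W) h hp.out.ne_zero τ).det = M.det := by
    rw [FA.WeilNF.det_rep hp.out.ne_zero h hτ, ZMod.natCast_zmod_val]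
  obtain ⟨σ, hσ⟩ := sl_image W₀ h h3
    (M := TorGen.rep (E := W) h hp.out.ne_zero τ⁻¹ * M) (by
      rw [det_mul, ← hdet, ← det_mul, ← map_mul, inv_mul_cancel, map_one, det_one])
  exact ⟨τ * σ, by rw [map_mul, hσ, ← mul_assoc, ← map_mul, mul_inv_cancel, map_one, one_mul]⟩

/-- **Such places exist** when every invertible matrix occurs, `p ≥ 5`. -/
theorem threePlaces_of_image (h5 : 5 ≤ p) (hall : ∀ M : Matrix (Fin 2) (Fin 2) (ZMod p),
    M.det ≠ 0 → ∃ σ : Kb ≃ₐ[K] Kb, TorGen.rep (E := W) h hp.out.ne_zero σ = M) :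
    ThreePlaces W₀ p := by
  intro C hC
  obtain ⟨e₁, e₂, e₃⟩ := exists_pairs (p := p) h5
  obtain ⟨t, d, hd, hCd⟩ : ∃ t d : ZMod p, d ≠ 0 ∧ C t d := by
    simp only [List.mem_cons, List.not_mem_nil, or_false] at hC
    rcases hC with rfl | rfl | rfl
    exacts [e₁, e₂, e₃]
  obtain ⟨σ, hσ⟩ := hall !![0, -d; 1, t] (by simp [det_fin_two, hd])
  obtain ⟨v, hv, hbad⟩ := (infinite_places W₀ hp.out.ne_zero h (σ := σ)
    (S := {x | C x.1 x.2}) (by simp [hσ, trace_fin_two, det_fin_two, hCd])).exists_notMem_finite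
    ((finite_mem (Δ_ne_zero W₀)).union (finite_mem (Nat.cast_ne_zero.2 hp.out.ne_zero :
      (p : 𝓞 K) ≠ 0)))
  simp only [Set.mem_union, Set.mem_ofPred_eq, not_or] at hbad
  exact ⟨v, hbad.1, hbad.2, hv⟩

end FA.FrobCriterion

end
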